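import Fermat.Agent.S20.Cusp.Defs

/-!
# S20 / Cusp / IdemDet: determinants of linear combinations of orthogonal idempotent matrices
(pure linear algebra).
-/

set_option autoImplicit false

namespace Fermat.Agent.S20.CuspAux

variable {n : Type*} [Fintype n] [DecidableEq n]

/-- For an idempotent matrix `p`: `det (1 + (c - 1) p) = c ^ (trace p)`, and `trace p` is a natural
number. -/
theorem det_one_add_idem (p : Matrix n n ℂ) (hp : p * p = p) :
    ∃ k : ℕ, (k : ℂ) = Matrix.trace p ∧ ∀ c : ℂ, Matrix.det (1 + (c - 1) • p) = c ^ k := by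
  classical
  -- `H = det (1 + X p)` as a polynomial, `G(c) = H(c - 1) = det (1 + (c - 1) p)`
  obtain ⟨H, hHdef⟩ : ∃ H : Polynomial ℂ,
      H = Matrix.det (1 + (Polynomial.X : Polynomial ℂ) • p.map Polynomial.C) := ⟨_, rfl⟩
  have hHeval : ∀ r : ℂ, H.eval r = Matrix.det (1 + r • p) := by
    intro r
    have h1 : H.eval r = Polynomial.evalRingHom r H := rfl
    rw [h1, hHdef, RingHom.map_det]
    congr 1
    ext i j
    simp only [RingHom.mapMatrix_apply, Matrix.map_apply, Matrix.add_apply, Matrix.smul_apply,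
      Polynomial.coe_evalRingHom, Polynomial.eval_add, smul_eq_mul, Polynomial.eval_mul,
      Polynomial.eval_X, Polynomial.eval_C]
    congr 1
    by_cases hij : i = j
    · subst hij; simp
    · simp [hij]
  have hHder : (Polynomial.derivative H).eval 0 = Matrix.trace p := by
    rw [hHdef]
    exact Matrix.derivative_det_one_add_X_smul p
  obtain ⟨G, hGdef⟩ : ∃ G : Polynomial ℂ, G = H.comp (Polynomial.X - 1) := ⟨_, rfl⟩
  have hGeval : ∀ c : ℂ, G.eval c = Matrix.det (1 + (c - 1) • p) := by
    intro c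
    rw [hGdef, Polynomial.eval_comp, hHeval]
    simp
  have hGder : (Polynomial.derivative G).eval 1 = Matrix.trace p := by
    rw [hGdef, Polynomial.derivative_comp, ← hHder]
    simp [Polynomial.eval_comp]
  -- multiplicativity of `c ↦ G(c)`
  have hmul : ∀ c d : ℂ, G.eval c * G.eval d = G.eval (c * d) := by
    intro c d
    rw [hGeval, hGeval, hGeval, ← Matrix.det_mul]
    congr 1
    rw [add_mul, mul_add, mul_add, one_mul, mul_one, one_mul, Matrix.smul_mul, Matrix.mul_smul, hp,
      smul_smul, add_assoc, ← add_assoc ((d - 1) • p), ← add_smul, ← add_smul]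
    congr 2
    ring
  have h1 : G.eval 1 = 1 := by rw [hGeval]; simp
  have hG0 : G ≠ 0 := by
    intro h
    rw [h] at h1
    simp at h1
  -- hence `G(d) = d ^ deg G`
  have hpow : ∀ d : ℂ, G.eval d = d ^ G.natDegree := by
    intro d
    have heq : G * Polynomial.C (G.eval d) = G.comp (Polynomial.C d * Polynomial.X) := by
      apply Polynomial.funext
      intro c
      simp only [Polynomial.eval_mul, Polynomial.eval_C, Polynomial.eval_comp, Polynomial.eval_X]
      rw [hmul, mul_comm]
    have h2 := congrArg (fun q => Polynomial.coeff q G.natDegree) heq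
    simp only [Polynomial.coeff_mul_C, Polynomial.comp_C_mul_X_coeff] at h2
    have hlc : G.coeff G.natDegree ≠ 0 := by
      rw [Polynomial.coeff_natDegree]
      exact Polynomial.leadingCoeff_ne_zero.mpr hG0
    exact mul_left_cancel₀ hlc h2
  refine ⟨G.natDegree, ?_, fun c => by rw [← hGeval, hpow]⟩
  -- the degree is the trace: compare derivatives at `1`
  obtain ⟨m, hm⟩ : ∃ m : ℕ, m = G.natDegree := ⟨_, rfl⟩
  rw [← hm] at hpow ⊢
  have hGX : G = Polynomial.X ^ m := by
    apply Polynomial.funext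
    intro c
    rw [hpow]
    simp
  rw [← hGder, hGX]
  rw [Polynomial.derivative_X_pow]; simp

/-- For orthogonal idempotents `p r` (`r ∈ s`) with sum `1`:
`det (∑ c_r p_r) = ∏ c_r ^ (trace p_r)`. -/
theorem det_sum_idem {ι : Type*} [DecidableEq ι] (s : Finset ι) (p : ι → Matrix n n ℂ)
    (horth : ∀ r ∈ s, ∀ r' ∈ s, p r * p r' = if r = r' then p r else 0)
    (hsum : ∑ r ∈ s, p r = 1) :
    ∃ k : ι → ℕ, (∀ r ∈ s, (k r : ℂ) = Matrix.trace (p r)) ∧
      ∀ c : ι → ℂ, Matrix.det (∑ r ∈ s, c r • p r) = ∏ r ∈ s, c r ^ k r := by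
  classical
  have hex : ∀ r : ι, ∃ k : ℕ, r ∈ s → ((k : ℂ) = Matrix.trace (p r) ∧
      ∀ c : ℂ, Matrix.det (1 + (c - 1) • p r) = c ^ k) := by
    intro r
    by_cases hr : r ∈ s
    · obtain ⟨k, hk1, hk2⟩ := det_one_add_idem (p r) (by rw [horth r hr r hr, if_pos rfl])
      exact ⟨k, fun _ => ⟨hk1, hk2⟩⟩
    · exact ⟨0, fun h => absurd h hr⟩
  choose k hk using hex
  refine ⟨k, fun r hr => (hk r hr).1, fun c => ?_⟩
  have key : ∀ s' : Finset ι, s' ⊆ s →
      Matrix.det (1 + ∑ r ∈ s', (c r - 1) • p r) = ∏ r ∈ s', c r ^ k r := by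
    intro s'
    induction s' using Finset.induction_on with
    | empty => intro _; simp
    | insert r₀ s' hr₀ ih =>
      intro hsub
      have hr₀s : r₀ ∈ s := hsub (Finset.mem_insert_self r₀ s')
      have hs's : s' ⊆ s := fun x hx => hsub (Finset.mem_insert_of_mem hx)
      have hz : ((c r₀ - 1) • p r₀) * ∑ r ∈ s', (c r - 1) • p r = 0 := by
        rw [Finset.mul_sum]
        apply Finset.sum_eq_zero
        intro r hr
        have hne : r₀ ≠ r := by
          rintro rfl
          exact hr₀ hr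
        rw [Matrix.smul_mul, Matrix.mul_smul, horth r₀ hr₀s r (hs's hr), if_neg hne, smul_zero,
          smul_zero]
      have hprod : 1 + ∑ r ∈ insert r₀ s', (c r - 1) • p r
          = (1 + (c r₀ - 1) • p r₀) * (1 + ∑ r ∈ s', (c r - 1) • p r) := by
        rw [Finset.sum_insert hr₀, add_mul, one_mul, mul_add, mul_one, hz, add_zero]
        abel
      rw [hprod, Matrix.det_mul, ih hs's, (hk r₀ hr₀s).2 (c r₀), Finset.prod_insert hr₀]
  have h := key s (Finset.Subset.refl s)
  rw [← h]
  congr 1
  rw [← hsum, ← Finset.sum_add_distrib]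
  apply Finset.sum_congr rfl
  intro r _
  rw [sub_smul, one_smul]
  abel

end Fermat.Agent.S20.CuspAux
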