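import Fermat.Agent.S20.Cusp.Idem

/-!
# S20 / Cusp / PermTrace: the traces of the isotypic projectors of a permutation matrix
-/

set_option autoImplicit false

namespace Fermat.Agent.S20.CuspAux

/-- Burnside: the average number of fixed points of the powers of `σ` is the number of orbits. -/
theorem sum_card_fixed_pow {μ : ℕ} (σ : Equiv.Perm (Fin μ)) (N : ℕ) (hN : N ≠ 0)
    (hσ : σ ^ N = 1) :
    ∑ a ∈ Finset.range N, (Finset.univ.filter fun x => (σ ^ a) x = x).card
      = N * numOrbits σ := by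
  classical
  have _hN := hN
  have hfin : IsOfFinOrder σ := isOfFinOrder_of_finite σ
  obtain ⟨e, he⟩ : orderOf σ ∣ N := orderOf_dvd_of_pow_eq_one hσ
  -- periodicity of `a ↦ σ ^ a`
  have hper : ∀ a b : ℕ, σ ^ (orderOf σ * b + a) = σ ^ a := by
    intro a b
    rw [pow_add, pow_mul, pow_orderOf_eq_one, one_pow, one_mul]
  -- the sum over `range (d * e)` is `e` times the sum over `range d`
  have hsum : ∀ e : ℕ, ∑ a ∈ Finset.range (orderOf σ * e),
      (Finset.univ.filter fun x => (σ ^ a) x = x).card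
      = e * ∑ a ∈ Finset.range (orderOf σ), (Finset.univ.filter fun x => (σ ^ a) x = x).card := by
    intro e
    induction e with
    | zero => simp
    | succ e ih =>
      rw [Nat.mul_succ, Finset.sum_range_add, ih]
      simp_rw [hper]
      ring
  -- Burnside's lemma for the group `zpowers σ`
  have : Fintype (MulAction.orbitRel.Quotient (Subgroup.zpowers σ) (Fin μ)) := Fintype.ofFinite _
  have hB := MulAction.sum_card_fixedBy_eq_card_orbits_mul_card_group (Subgroup.zpowers σ) (Fin μ)
  rw [Fintype.card_zpowers] at hB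
  have hB' : ∑ a ∈ Finset.range (orderOf σ), (Finset.univ.filter fun x => (σ ^ a) x = x).card
      = numOrbits σ * orderOf σ := by
    rw [numOrbits, Nat.card_eq_fintype_card]
    rw [← hB, ← Fin.sum_univ_eq_sum_range
      (fun a => (Finset.univ.filter fun x => (σ ^ a) x = x).card)]
    rw [← Equiv.sum_comp (finEquivZPowers hfin)]
    refine Finset.sum_congr rfl fun a _ => ?_
    rw [← Fintype.card_coe]
    refine Fintype.card_congr (Equiv.subtypeEquivRight fun x => ?_)
    simp [finEquivZPowers_apply, MulAction.mem_fixedBy, Subgroup.smul_def]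
  rw [he, hsum, hB']
  ring

/-- The trace of `pr N (permM σ) 0` is the number of orbits of `σ`. -/
theorem trace_pr_zero {μ : ℕ} (σ : Equiv.Perm (Fin μ)) (N : ℕ) (hN : N ≠ 0) (hσ : σ ^ N = 1) :
    Matrix.trace (pr N (permM σ) 0) = (numOrbits σ : ℂ) := by
  have hNC : (N : ℂ) ≠ 0 := Nat.cast_ne_zero.mpr hN
  have h := sum_card_fixed_pow σ N hN hσ
  simp only [pr, Nat.mul_zero, pow_zero, one_smul, Matrix.trace_smul, Matrix.trace_sum,
    permM_pow, trace_permM, smul_eq_mul]
  rw [← Nat.cast_sum, h, Nat.cast_mul, inv_mul_cancel_left₀ hNC]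

/-- PERMUTATION LEMMA: if `k r = trace (pr N (permM σ) r)` (natural numbers) then
`2 * ∑_{r<N} r * k r = N * (μ - #orbits of σ)`. -/
theorem perm_trace_lemma {μ : ℕ} (σ : Equiv.Perm (Fin μ)) (N : ℕ) (hN : N ≠ 0) (hσ : σ ^ N = 1)
    (k : ℕ → ℕ) (hk : ∀ r < N, (k r : ℂ) = Matrix.trace (pr N (permM σ) r)) :
    2 * ∑ r ∈ Finset.range N, r * k r = N * (μ - numOrbits σ) := by
  have hM : permM σ ^ N = 1 := by rw [permM_pow, hσ, permM_one]
  have hNpos : 0 < N := Nat.pos_of_ne_zero hN
  -- (a) the traces sum to `μ`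
  have ha : ∑ r ∈ Finset.range N, k r = μ := by
    have h : ((∑ r ∈ Finset.range N, k r : ℕ) : ℂ) = (μ : ℂ) := by
      rw [Nat.cast_sum, Finset.sum_congr rfl (fun r hr => hk r (Finset.mem_range.mp hr)),
        ← Matrix.trace_sum, sum_pr hN hM, Matrix.trace_one, Fintype.card_fin]
    exact_mod_cast h
  -- (b) `k 0` is the number of orbits
  have hb : k 0 = numOrbits σ := by
    have h : (k 0 : ℂ) = (numOrbits σ : ℂ) := by rw [hk 0 hNpos, trace_pr_zero σ N hN hσ]
    exact_mod_cast h
  -- (c) the symmetry `k (N - r) = k r`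
  have hc : ∀ r, 0 < r → r < N → k (N - r) = k r := by
    intro r hr0 hrN
    have hformula : ∀ s, Matrix.trace (pr N (permM σ) s) = (N : ℂ)⁻¹ *
        ∑ a ∈ Finset.range N, ((zeta N)⁻¹) ^ (a * s) *
          ((Finset.univ.filter fun x => (σ ^ a) x = x).card : ℂ) := by
      intro s
      simp only [pr, Matrix.trace_smul, Matrix.trace_sum, permM_pow, trace_permM, smul_eq_mul]
    have hzN : zeta N ^ N = 1 := zeta_pow hN
    have hconj : (starRingEnd ℂ) (zeta N) = (zeta N)⁻¹ :=
      (Complex.inv_eq_conj (Complex.norm_eq_one_of_pow_eq_one hzN hN)).symm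
    have hpow : ∀ a : ℕ, zeta N ^ (a * r) = ((zeta N)⁻¹) ^ (a * (N - r)) := by
      intro a
      rw [inv_pow]
      apply eq_inv_of_mul_eq_one_left
      rw [← pow_add, ← Nat.mul_add, Nat.add_sub_cancel' hrN.le, mul_comm, pow_mul, hzN, one_pow]
    have h : (k (N - r) : ℂ) = (k r : ℂ) := by
      rw [hk _ (by omega), hformula]
      have h2 : (k r : ℂ) = (starRingEnd ℂ) (k r : ℂ) := (Complex.conj_natCast _).symm
      rw [h2, hk r hrN, hformula]
      simp only [map_mul, map_inv₀, map_sum, map_pow, Complex.conj_natCast, hconj, inv_inv, hpow]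
    exact_mod_cast h
  -- (d) the reflection argument
  obtain ⟨n, rfl⟩ : ∃ n, N = n + 1 := ⟨N - 1, by omega⟩
  rw [Finset.sum_range_succ'] at ha ⊢
  rw [hb] at ha
  have hrefl : ∑ r ∈ Finset.range n, (r + 1) * k (r + 1)
      = ∑ r ∈ Finset.range n, (n - r) * k (r + 1) := by
    rw [← Finset.sum_range_reflect]
    refine Finset.sum_congr rfl fun r hr => ?_
    have hr' : r < n := Finset.mem_range.mp hr
    have e1 : n - 1 - r + 1 = n - r := by omega
    have e2 : n - r = n + 1 - (r + 1) := by omega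
    rw [e1, e2, hc (r + 1) (by omega) (by omega)]
  have hsum : ∑ r ∈ Finset.range n, k (r + 1) = μ - numOrbits σ := by omega
  rw [← hsum, Nat.zero_mul, Nat.add_zero, two_mul]
  nth_rewrite 2 [hrefl]
  rw [← Finset.sum_add_distrib, Finset.mul_sum]
  refine Finset.sum_congr rfl fun r hr => ?_
  have hr' : r < n := Finset.mem_range.mp hr
  rw [← Nat.add_mul]
  congr 1
  omega

end Fermat.Agent.S20.CuspAux
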