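import Fermat.Agent.S20.Cusp.Defs

/-!
# S20 / Cusp / SigmaPow: `σ = perm N T` satisfies `σ ^ N = 1`; translation by `1`;
elementary facts on `qN N z = e^{2πiz/N}`.
-/

set_option autoImplicit false

open UpperHalfPlane ModularForm CongruenceSubgroup
open scoped MatrixGroups ModularForm Manifold
open Fermat.Agent.S23

namespace Fermat.Agent.S20.CuspAux

variable {N : ℕ} [NeZero N]

private theorem SigmaPow_perm_pow (γ : SL(2, ℤ)) (n : ℕ) : perm N (γ ^ n) = perm N γ ^ n := by
  induction n with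
  | zero => rw [pow_zero, pow_zero, perm_one]
  | succ n ih => rw [pow_succ', perm_mul, ih, pow_succ]

private theorem SigmaPow_perm_inv_mul (γ : SL(2, ℤ)) : perm N γ * perm N γ⁻¹ = 1 := by
  rw [← perm_mul, inv_mul_cancel, perm_one]

omit [NeZero N] in
private theorem SigmaPow_coe_T_pow (n : ℕ) :
    ((ModularGroup.T ^ n : SL(2, ℤ)) : Matrix (Fin 2) (Fin 2) ℤ) = !![1, (n : ℤ); 0, 1] := by
  have h := ModularGroup.coe_T_zpow (n : ℤ)
  rwa [zpow_natCast] at h

omit [NeZero N] in
private theorem SigmaPow_conj_mem (γ : SL(2, ℤ)) :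
    γ * ModularGroup.T ^ N * γ⁻¹ ∈ CongruenceSubgroup.Gamma0 N := by
  rw [CongruenceSubgroup.Gamma0_mem]
  have h : ((γ * ModularGroup.T ^ N * γ⁻¹ : SL(2, ℤ)) : Matrix (Fin 2) (Fin 2) ℤ) 1 0
      = -((N : ℤ) * (γ 1 0 * γ 1 0)) := by
    rw [Matrix.SpecialLinearGroup.coe_mul, Matrix.SpecialLinearGroup.coe_mul,
      SigmaPow_coe_T_pow, Matrix.SpecialLinearGroup.coe_inv, Matrix.adjugate_fin_two]
    simp only [Matrix.mul_apply, Fin.sum_univ_two, Matrix.of_apply, Matrix.cons_val_zero,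
      Matrix.cons_val_one, Matrix.cons_val', Matrix.empty_val', Matrix.cons_val_fin_one]
    ring
  rw [h]
  simp

theorem perm_T_pow : perm N ModularGroup.T ^ N = 1 := by
  rw [← SigmaPow_perm_pow]
  ext j
  obtain ⟨γ, rfl⟩ := exists_perm_i0 (N := N) j
  have h1 : perm N (γ * ModularGroup.T ^ N * γ⁻¹) (i0 N) = i0 N :=
    (perm_i0_iff _).mpr (SigmaPow_conj_mem γ)
  rw [perm_mul, perm_mul, Equiv.Perm.mul_apply, Equiv.Perm.mul_apply] at h1
  have h2 := congrArg (perm N γ) h1
  have h3 : ∀ x, perm N γ (perm N γ⁻¹ x) = x := fun x => by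
    rw [← Equiv.Perm.mul_apply, SigmaPow_perm_inv_mul, Equiv.Perm.one_apply]
  rw [h3] at h2
  rw [h2, Equiv.Perm.one_apply]

theorem MT_pow : MT N ^ N = 1 := by
  rw [MT, permM_pow, perm_T_pow, permM_one]

/-- `cj g j (z + 1) = cj g (σ j) z`. -/
theorem cj_T_smul {k : ℤ} (g : ModularForm (Gam N) k) (j : Fin (psi N)) (z : ℍ) :
    cj g j (ModularGroup.T • z) = cj g (perm N ModularGroup.T j) z := by
  have h := cj_smul_apply g ModularGroup.T j z
  have hd : denom (ModularGroup.T : SL(2, ℤ)) z = 1 := by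
    rw [ModularGroup.denom_apply, ModularGroup.coe_T]
    simp
  rw [hd, one_zpow, one_mul] at h
  exact h

theorem qN_T_smul (z : ℍ) : qN N (ModularGroup.T • z) = zeta N * qN N z := by
  have hN : (N : ℂ) ≠ 0 := Nat.cast_ne_zero.mpr (NeZero.ne N)
  rw [qN, qN, zeta, modular_T_smul, UpperHalfPlane.coe_vadd, ← Complex.exp_add]
  congr 1
  push_cast
  field_simp

theorem qN_ne_zero (N : ℕ) (z : ℍ) : qN N z ≠ 0 :=
  Complex.exp_ne_zero _

set_option linter.unusedSectionVars false in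
theorem norm_qN (z : ℍ) : ‖qN N z‖ = Real.exp (-(2 * Real.pi * z.im / N)) := by
  rw [qN, Complex.norm_exp]
  congr 1
  have h : (2 * (Real.pi : ℂ) * Complex.I * (z : ℂ) / (N : ℂ))
      = ((2 * Real.pi / N : ℝ) : ℂ) * (Complex.I * (z : ℂ)) := by
    push_cast
    ring
  rw [h, Complex.re_ofReal_mul]
  simp
  ring

set_option linter.unusedSectionVars false in
theorem norm_qN_le_one (z : ℍ) : ‖qN N z‖ ≤ 1 := by
  rw [norm_qN, Real.exp_le_one_iff, neg_nonpos]
  have := z.im_pos
  positivity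

set_option linter.unusedSectionVars false in
theorem norm_qN_inv (z : ℍ) : ‖(qN N z)⁻¹‖ = Real.exp (2 * Real.pi * z.im / N) := by
  rw [norm_inv, norm_qN, Real.exp_neg, inv_inv]

set_option linter.unusedSectionVars false in
theorem one_le_norm_qN_inv (z : ℍ) : 1 ≤ ‖(qN N z)⁻¹‖ := by
  rw [norm_qN_inv, Real.one_le_exp_iff]
  have := z.im_pos
  positivity

theorem qN_pow (z : ℍ) : qN N z ^ N = Complex.exp (2 * Real.pi * Complex.I * (z : ℂ)) := by
  have hN : (N : ℂ) ≠ 0 := Nat.cast_ne_zero.mpr (NeZero.ne N)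
  rw [qN, ← Complex.exp_nat_mul]
  congr 1
  field_simp

set_option linter.unusedSectionVars false in
theorem mdiff_qN_inv_pow (r : ℕ) : MDiff (fun z : ℍ => ((qN N z)⁻¹) ^ r) := by
  rw [UpperHalfPlane.mdifferentiable_iff]
  have hd : Differentiable ℂ
      (fun w : ℂ => ((Complex.exp (2 * Real.pi * Complex.I * w / N))⁻¹) ^ r) := by
    have h1 : Differentiable ℂ (fun w : ℂ => Complex.exp (2 * Real.pi * Complex.I * w / N)) :=
      Complex.differentiable_exp.comp
        (((differentiable_const _).mul differentiable_id).div_const _)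
    exact (h1.inv fun w => Complex.exp_ne_zero _).pow r
  refine hd.differentiableOn.congr fun w hw => ?_
  simp only [Function.comp_apply, qN]
  rw [ofComplex_apply_of_im_pos hw]

end Fermat.Agent.S20.CuspAux
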