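import Fermat.Agent.S20.Cusp.Idem
import Fermat.Agent.S20.Cusp.IdemDet
import Fermat.Agent.S20.Cusp.PermTrace
import Fermat.Agent.S20.Cusp.SigmaPow

/-!
# S20 / Cusp / DetE: `det (Et N (MT N) t) ^ 2 = t ^ (N * (psi N - #orbits of T))`
-/

set_option autoImplicit false

open UpperHalfPlane ModularForm CongruenceSubgroup
open scoped MatrixGroups ModularForm Manifold
open Fermat.Agent.S23

namespace Fermat.Agent.S20.CuspAux

/-- `det E(t) = t ^ (∑ r · trace p_r)`. -/
theorem det_Et {n : Type*} [Fintype n] [DecidableEq n] {N : ℕ} {M : Matrix n n ℂ} (hN : N ≠ 0)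
    (hM : M ^ N = 1) :
    ∃ k : ℕ → ℕ, (∀ r < N, (k r : ℂ) = Matrix.trace (pr N M r)) ∧
      ∀ t : ℂ, Matrix.det (Et N M t) = t ^ (∑ r ∈ Finset.range N, r * k r) := by
  obtain ⟨k, hk, hdet⟩ := det_sum_idem (Finset.range N) (fun r => pr N M r)
    (fun r hr r' hr' => pr_mul_pr hN hM (Finset.mem_range.mp hr) (Finset.mem_range.mp hr'))
    (sum_pr hN hM)
  refine ⟨k, fun r hr => hk r (Finset.mem_range.mpr hr), fun t => ?_⟩
  have h := hdet (fun r => t ^ r)
  unfold Et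
  rw [h, ← Finset.prod_pow_eq_pow_sum]
  exact Finset.prod_congr rfl fun r _ => (pow_mul t r (k r)).symm

variable {N : ℕ} [NeZero N]

theorem det_Et_sq (t : ℂ) :
    Matrix.det (Et N (MT N) t) ^ 2 = t ^ (N * (psi N - numOrbits (perm N ModularGroup.T))) := by
  obtain ⟨k, hk, hdet⟩ := det_Et (N := N) (M := MT N) (NeZero.ne N) MT_pow
  have h := perm_trace_lemma (perm N ModularGroup.T) N (NeZero.ne N) perm_T_pow k hk
  rw [hdet t, ← pow_mul, mul_comm _ 2, h]

end Fermat.Agent.S20.CuspAux
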