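import Fermat.Agent.S20.Cusp.Twist

/-!
# S20 / Cusp / LInf: the limit matrix `L_∞` of the twisted matrix of conjugates of a free basis
is invertible.
-/

set_option autoImplicit false

open UpperHalfPlane ModularForm CongruenceSubgroup
open scoped MatrixGroups ModularForm Manifold
open Fermat.Agent.S23

namespace Fermat.Agent.S20.CuspAux

variable {N : ℕ} [NeZero N]

/-- If all conjugates of `F` are `O(e^{-2π Im z})` at `i∞` then `F = Δ · H`. -/
theorem exists_div_Delta_of_decay {K : ℤ} (F : ModularForm (Gam N) K)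
    (hdec : ∀ j, ∃ C A : ℝ, ∀ z : ℍ, A ≤ z.im →
      ‖cj F j z‖ ≤ C * Real.exp (-(2 * Real.pi * z.im))) :
    ∃ H : ModularForm (Gam N) (K - 12), ∀ z : ℍ, F z = Δf z * H z := by
  refine div_Δ F (fun j => ?_)
  obtain ⟨C, A, hCA⟩ := hdec j
  obtain ⟨c, A', hc, hcA⟩ := Delta_lower
  rw [UpperHalfPlane.isBoundedAtImInfty_iff]
  refine ⟨C / c, max A A', fun z hz => ?_⟩
  have h1 := hCA z (le_trans (le_max_left _ _) hz)
  have h2 := hcA z (le_trans (le_max_right _ _) hz)
  have hexp : 0 < Real.exp (-(2 * Real.pi * z.im)) := Real.exp_pos _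
  have hΔpos : 0 < ‖Δf z‖ := lt_of_lt_of_le (mul_pos hc hexp) h2
  rw [norm_div, div_le_iff₀ hΔpos]
  have hC : 0 ≤ C := by
    by_contra hneg
    have : C * Real.exp (-(2 * Real.pi * z.im)) < 0 :=
      mul_neg_of_neg_of_pos (not_le.mp hneg) hexp
    linarith [norm_nonneg (cj F j z)]
  calc ‖cj F j z‖ ≤ C * Real.exp (-(2 * Real.pi * z.im)) := h1
    _ = C / c * (c * Real.exp (-(2 * Real.pi * z.im))) := by field_simp
    _ ≤ C / c * ‖Δf z‖ := mul_le_mul_of_nonneg_left h2 (div_nonneg hC hc.le)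

/-- The limit matrix is invertible. -/
theorem det_Linf_ne_zero (κ : Fin (psi N) → ℕ) (f : ∀ i, ModularForm (Gam N) (κ i))
    (hfree : IsFreeBasis κ f) (Linf : Matrix (Fin (psi N)) (Fin (psi N)) ℂ)
    (hL : ∀ i j, Filter.Tendsto (fun z : ℍ => tw (f i) z j) atImInfty (nhds (Linf i j))) :
    Linf.det ≠ 0 := by
  intro hdet
  obtain ⟨c, hc0, hc⟩ := Matrix.exists_vecMul_eq_zero_iff.mpr hdet
  have hev : ∀ i, Even (κ i) := kappa_even κ f hfree
  obtain ⟨K, hK⟩ : ∃ K : ℤ, K = (∑ i, (κ i : ℤ)) + 4 := ⟨_, rfl⟩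
  have hKev : ∀ i, Even (K - (κ i : ℤ)) := by
    intro i
    have h1 : Even (∑ i, (κ i : ℤ)) :=
      Finset.even_sum _ (fun i _ => (Int.even_coe_nat _).mpr (hev i))
    have h2 : Even ((κ i : ℤ)) := (Int.even_coe_nat _).mpr (hev i)
    have h4 : Even (4 : ℤ) := ⟨2, by norm_num⟩
    rw [hK]
    exact (h1.add h4).sub h2
  have hK4 : ∀ i, 4 ≤ K - (κ i : ℤ) := by
    intro i
    have : (κ i : ℤ) ≤ ∑ i, (κ i : ℤ) :=
      Finset.single_le_sum (f := fun i => (κ i : ℤ)) (fun i _ => Int.natCast_nonneg _)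
        (Finset.mem_univ i)
    linarith
  choose G hG using fun i => exists_levelOne_tendsto_one (K - (κ i : ℤ)) (hKev i) (hK4 i)
  obtain ⟨a, ha⟩ : ∃ a : ∀ i, ModularForm 𝒮ℒ (K - (κ i : ℤ)), a = fun i => c i • G i :=
    ⟨_, rfl⟩
  have haz : ∀ i (z : ℍ), a i z = c i * G i z := by
    intro i z
    rw [ha]
    rfl
  obtain ⟨F, hF⟩ := exists_sum_mulL1 κ f a
  have htw : ∀ j, Filter.Tendsto (fun z : ℍ => tw F z j) atImInfty (nhds 0) := by
    intro j
    have h1 : (fun z : ℍ => tw F z j) = fun z => ∑ i, c i * G i z * tw (f i) z j := by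
      funext z
      rw [tw_of_eq_sum κ f a F hF z j]
      simp only [haz]
    rw [h1]
    have h2 : Filter.Tendsto (fun z : ℍ => ∑ i, c i * G i z * tw (f i) z j) atImInfty
        (nhds (∑ i, c i * 1 * Linf i j)) := by
      refine tendsto_finsetSum _ (fun i _ => ?_)
      exact ((tendsto_const_nhds.mul (hG i)).mul (hL i j))
    have h3 : ∑ i, c i * 1 * Linf i j = 0 := by
      have := congrFun hc j
      simpa [Matrix.vecMul, dotProduct] using this
    rw [h3] at h2
    exact h2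
  obtain ⟨H, hH⟩ := exists_div_Delta_of_decay F (cj_exp_decay F htw)
  obtain ⟨b, hb⟩ := (hfree (K - 12) H).exists
  choose a' ha' using fun i =>
    exists_Delta_mulL1 (e := K - 12 - (κ i : ℤ)) (e' := K - (κ i : ℤ)) (by ring) (b i)
  have hF' : ∀ z : ℍ, F z = ∑ i, a' i z * f i z := by
    intro z
    rw [hH z, hb z, Finset.mul_sum]
    refine Finset.sum_congr rfl (fun i _ => ?_)
    rw [ha' i z, mul_assoc]
  have haa' : a = a' := (hfree K F).unique hF hF'
  have hci : ∀ i, c i = 0 := by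
    intro i
    have h1 : Filter.Tendsto (fun z : ℍ => c i * G i z) atImInfty (nhds (c i * 1)) :=
      tendsto_const_nhds.mul (hG i)
    have h2 : (fun z : ℍ => c i * G i z) = fun z => Δf z * b i z := by
      funext z
      rw [← haz i z, haa', ha' i z]
    rw [h2] at h1
    have := tendsto_nhds_unique h1 (tendsto_Delta_mul_levelOne (b i))
    simpa using this
  exact hc0 (funext hci)

end Fermat.Agent.S20.CuspAux
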