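import Fermat.Agent.S20.Div

/-!
# S20 / Cusp / Defs: shared definitions of the chapter "behaviour at the cusp `i∞`"

`σ := perm N T`, `M := permM σ` (so that `(A * M) i j = A i (σ j)`), `M ^ N = 1`;
`pr N M r = (1/N) ∑_{a<N} ζ^(-a r) M^a` (orthogonal idempotents, `∑_r pr N M r = 1`,
`M * pr N M r = ζ^r • pr N M r`), `Et N M t = ∑_{r<N} t^r • pr N M r`
(`Et t * Et s = Et (t s)`, `Et 1 = 1`, `M * Et t = Et (ζ t)`);
`qN N z = e^{2πiz/N}`; the twisted row `tw g z = (cj g j z)_j ᵥ* Et N M (qN N z)⁻¹` is `1`-periodic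
in `z`.
-/

set_option autoImplicit false

open UpperHalfPlane ModularForm CongruenceSubgroup
open scoped MatrixGroups ModularForm Manifold
open Fermat.Agent.S23

namespace Fermat.Agent.S20.CuspAux

/-- `ζ_N = e^{2πi/N}`. -/
noncomputable def zeta (N : ℕ) : ℂ := Complex.exp (2 * Real.pi * Complex.I / N)

/-- The `r`-th isotypic projector `p_r = (1/N) ∑_{a<N} ζ^(-a r) M^a` of a matrix `M` with
`M ^ N = 1`. -/
noncomputable def pr {n : Type*} [Fintype n] [DecidableEq n] (N : ℕ) (M : Matrix n n ℂ) (r : ℕ) :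
    Matrix n n ℂ :=
  (N : ℂ)⁻¹ • ∑ a ∈ Finset.range N, ((zeta N)⁻¹) ^ (a * r) • M ^ a

/-- `E(t) = ∑_{r<N} t^r p_r`. -/
noncomputable def Et {n : Type*} [Fintype n] [DecidableEq n] (N : ℕ) (M : Matrix n n ℂ) (t : ℂ) :
    Matrix n n ℂ :=
  ∑ r ∈ Finset.range N, t ^ r • pr N M r

/-- The matrix of the permutation `σ`: `(A * permM σ) i j = A i (σ j)`. -/
def permM {μ : ℕ} (σ : Equiv.Perm (Fin μ)) : Matrix (Fin μ) (Fin μ) ℂ :=
  Matrix.of fun j' j => if j' = σ j then 1 else 0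

theorem permM_apply {μ : ℕ} (σ : Equiv.Perm (Fin μ)) (i j : Fin μ) :
    permM σ i j = if i = σ j then 1 else 0 := rfl

theorem mul_permM_apply {μ : ℕ} (A : Matrix (Fin μ) (Fin μ) ℂ) (σ : Equiv.Perm (Fin μ))
    (i j : Fin μ) : (A * permM σ) i j = A i (σ j) := by
  simp [Matrix.mul_apply, permM]

theorem vecMul_permM {μ : ℕ} (v : Fin μ → ℂ) (σ : Equiv.Perm (Fin μ)) (j : Fin μ) :
    Matrix.vecMul v (permM σ) j = v (σ j) := by
  simp [Matrix.vecMul, dotProduct, permM]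

theorem permM_one {μ : ℕ} : permM (1 : Equiv.Perm (Fin μ)) = 1 := by
  ext i j
  simp [permM, Matrix.one_apply]

theorem permM_mul {μ : ℕ} (σ τ : Equiv.Perm (Fin μ)) : permM (σ * τ) = permM σ * permM τ := by
  ext i j
  rw [mul_permM_apply]
  simp [permM]

theorem permM_pow {μ : ℕ} (σ : Equiv.Perm (Fin μ)) (a : ℕ) : permM σ ^ a = permM (σ ^ a) := by
  induction a with
  | zero => simp [permM_one]
  | succ a ih => rw [pow_succ, pow_succ, ih, permM_mul]

theorem trace_permM {μ : ℕ} (σ : Equiv.Perm (Fin μ)) :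
    Matrix.trace (permM σ) = ((Finset.univ.filter fun x => σ x = x).card : ℂ) := by
  simp only [Matrix.trace, Matrix.diag, permM_apply]
  rw [Finset.sum_ite, Finset.sum_const_zero, add_zero, Finset.sum_const, nsmul_eq_mul, mul_one]
  congr 2
  ext x
  simp [eq_comm]

/-- The matrix of `σ = perm N T`. -/
noncomputable abbrev MT (N : ℕ) [NeZero N] : Matrix (Fin (psi N)) (Fin (psi N)) ℂ :=
  permM (perm N ModularGroup.T)

/-- `q_N(z) = e^{2πiz/N}`. -/
noncomputable def qN (N : ℕ) (z : ℍ) : ℂ :=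
  Complex.exp (2 * Real.pi * Complex.I * (z : ℂ) / N)

/-- The twisted row of conjugates of a form `g` on `Γ₀(N)`:
`tw g z = (cj g j z)_j ᵥ* Et N (MT N) (qN N z)⁻¹`. -/
noncomputable def tw {N : ℕ} [NeZero N] {k : ℤ} (g : ModularForm (Gam N) k) (z : ℍ)
    (j : Fin (psi N)) : ℂ :=
  ∑ j', cj g j' z * Et N (MT N) (qN N z)⁻¹ j' j

/-- `L(z) = V(z) * E(q_N(z))⁻¹`. -/
noncomputable def Lmat {N : ℕ} [NeZero N] (κ : Fin (psi N) → ℕ)
    (f : ∀ i, ModularForm (Gam N) (κ i)) (z : ℍ) : Matrix (Fin (psi N)) (Fin (psi N)) ℂ :=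
  Vmat κ f z * Et N (MT N) (qN N z)⁻¹

theorem Lmat_apply {N : ℕ} [NeZero N] (κ : Fin (psi N) → ℕ)
    (f : ∀ i, ModularForm (Gam N) (κ i)) (z : ℍ) (i j : Fin (psi N)) :
    Lmat κ f z i j = tw (f i) z j := by
  simp [Lmat, tw, Matrix.mul_apply, Vmat]

end Fermat.Agent.S20.CuspAux
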