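import Fermat.Agent.S20.Cusp.Limits

/-!
# S20 / Cusp / Forms: auxiliary constructions of modular forms (sums `∑ a_i f_i`, level-one forms
with constant term `1`, multiplication by `Δ`), parity of the weights of a free basis.
-/

set_option autoImplicit false

open UpperHalfPlane ModularForm CongruenceSubgroup
open scoped MatrixGroups ModularForm Manifold
open Fermat.Agent.S23

namespace Fermat.Agent.S20.CuspAux

variable {N : ℕ} [NeZero N]

omit [NeZero N] in
/-- Weight cast for forms of level `Γ₀(N)`. -/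
private theorem Forms_castGam {k k' : ℤ} (h : k = k') (g : ModularForm (Gam N) k) :
    ∃ g' : ModularForm (Gam N) k', ∀ z : ℍ, g' z = g z := by
  subst h
  exact ⟨g, fun _ => rfl⟩

/-- Weight cast for level-one forms. -/
private theorem Forms_castL1 {k k' : ℤ} (h : k = k') (g : ModularForm 𝒮ℒ k) :
    ∃ g' : ModularForm 𝒮ℒ k', ∀ z : ℍ, g' z = g z := by
  subst h
  exact ⟨g, fun _ => rfl⟩

/-- The product `a_i f_i` as a form of weight `K`. -/
private theorem Forms_exists_prod {K : ℤ} (κ : Fin (psi N) → ℕ)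
    (f : ∀ i, ModularForm (Gam N) (κ i)) (a : ∀ i, ModularForm 𝒮ℒ (K - (κ i : ℤ)))
    (i : Fin (psi N)) : ∃ g : ModularForm (Gam N) K, ∀ z : ℍ, g z = a i z * f i z := by
  obtain ⟨g, hg⟩ := exists_mulL1 (a i) (f i)
  obtain ⟨g', hg'⟩ := Forms_castGam (sub_add_cancel K (κ i : ℤ)) g
  exact ⟨g', fun z => by rw [hg', hg]⟩

omit [NeZero N] in
/-- Pointwise evaluation of a finite sum of modular forms. -/
private theorem Forms_sum_apply {K : ℤ} {ι : Type*} (s : Finset ι)
    (g : ι → ModularForm (Gam N) K) (z : ℍ) : (∑ i ∈ s, g i) z = ∑ i ∈ s, g i z := by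
  classical
  induction s using Finset.induction_on with
  | empty => simp
  | insert i s hi ih => rw [Finset.sum_insert hi, Finset.sum_insert hi, add_apply, ih]

/-- Transformation law of a level-one form under `SL(2,ℤ)`. -/
private theorem Forms_lvl1_eqn {k : ℤ} (f : ModularForm 𝒮ℒ k) (γ : SL(2, ℤ)) (z : ℍ) :
    f (γ • z) = denom γ z ^ k * f z :=
  SlashInvariantForm.slash_action_eqn'' (Γ := 𝒮ℒ) f
    (γ := Matrix.SpecialLinearGroup.mapGL ℝ γ) ⟨γ, rfl⟩ z

/-- Transformation law of the discriminant function. -/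
private theorem Forms_Δf_smul (γ : SL(2, ℤ)) (z : ℍ) :
    Δf (γ • z) = denom γ z ^ (12 : ℤ) * Δf z :=
  SlashInvariantForm.slash_action_eqn'' (Γ := 𝒮ℒ) CuspForm.discriminant
    (γ := Matrix.SpecialLinearGroup.mapGL ℝ γ) ⟨γ, rfl⟩ z

/-- The discriminant function is holomorphic. -/
private theorem Forms_mdiff_Δf : MDiff Δf := CuspForm.discriminant.holo'

/-- `∑ a_i f_i` as a modular form of weight `K`. -/
theorem exists_sum_mulL1 {K : ℤ} (κ : Fin (psi N) → ℕ) (f : ∀ i, ModularForm (Gam N) (κ i))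
    (a : ∀ i, ModularForm 𝒮ℒ (K - (κ i : ℤ))) :
    ∃ F : ModularForm (Gam N) K, ∀ z : ℍ, F z = ∑ i, a i z * f i z := by
  choose g hg using Forms_exists_prod κ f a
  refine ⟨∑ i, g i, fun z => ?_⟩
  rw [Forms_sum_apply]
  exact Finset.sum_congr rfl fun i _ => hg i z

/-- Conjugates of `∑ a_i f_i`. -/
theorem cj_of_eq_sum_mul {K : ℤ} (κ : Fin (psi N) → ℕ) (f : ∀ i, ModularForm (Gam N) (κ i))
    (a : ∀ i, ModularForm 𝒮ℒ (K - (κ i : ℤ))) (F : ModularForm (Gam N) K)
    (h : ∀ z : ℍ, F z = ∑ i, a i z * f i z) (j : Fin (psi N)) (z : ℍ) :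
    cj F j z = ∑ i, a i z * cj (f i) j z := by
  choose g hg using Forms_exists_prod κ f a
  have h1 : ∀ z : ℍ, F z = ∑ i ∈ Finset.univ, g i z := fun z => by
    rw [h z]
    exact Finset.sum_congr rfl fun i _ => (hg i z).symm
  rw [cj_of_eq_sum Finset.univ F g h1 j z]
  exact Finset.sum_congr rfl fun i _ =>
    cj_of_eq_mul (a i) (f i) (g i) (by ring) (hg i) j z

/-- The weights of a free basis are even. -/
theorem kappa_even (κ : Fin (psi N) → ℕ) (f : ∀ i, ModularForm (Gam N) (κ i))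
    (hfree : IsFreeBasis κ f) (i : Fin (psi N)) : Even (κ i) := by
  by_contra hodd
  rw [Nat.not_even_iff_odd] at hodd
  have hfi : f i = 0 := modularForm_odd_weight (by exact_mod_cast hodd) (f i)
  obtain ⟨e4, he4⟩ :=
    Forms_castL1 (show (4 : ℤ) = ((κ i : ℤ) + 4) - (κ i : ℤ) by ring) ModularForm.E₄
  have hu := hfree ((κ i : ℤ) + 4) 0
  have h0 : ∀ z : ℍ, (0 : ModularForm (Gam N) ((κ i : ℤ) + 4)) z =
      ∑ j, (0 : ∀ j, ModularForm 𝒮ℒ ((κ i : ℤ) + 4 - (κ j : ℤ))) j z * f j z := by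
    intro z
    simp
  have h1 : ∀ z : ℍ, (0 : ModularForm (Gam N) ((κ i : ℤ) + 4)) z =
      ∑ j, (Function.update (0 : ∀ j, ModularForm 𝒮ℒ ((κ i : ℤ) + 4 - (κ j : ℤ))) i e4) j z *
        f j z := by
    intro z
    rw [Finset.sum_eq_single i]
    · rw [hfi]
      simp
    · intro j _ hj
      rw [Function.update_of_ne hj]
      simp
    · intro h
      exact absurd (Finset.mem_univ i) h
  have heq := hu.unique h1 h0
  have he0 : e4 = 0 := by
    have := congrFun heq i
    rwa [Function.update_self] at this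
  have hz0 : ∀ z : ℍ, ModularForm.E₄ z = 0 := fun z => by
    rw [← he4, he0]
    rfl
  obtain ⟨z, hz⟩ := (StabAux.tendsto_E₄.eventually_ne one_ne_zero).exists
  exact hz (hz0 z)

/-- A level-one form of even weight `e ≥ 4` with value `1` at `i∞` (`E₄^a E₆^b`). -/
theorem exists_levelOne_tendsto_one (e : ℤ) (he : Even e) (he4 : 4 ≤ e) :
    ∃ G : ModularForm 𝒮ℒ e, Filter.Tendsto (fun z : ℍ => G z) atImInfty (nhds 1) := by
  obtain ⟨a, b, hab⟩ : ∃ a b : ℕ, e = 4 * (a : ℤ) + 6 * (b : ℤ) := by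
    obtain ⟨m, hm⟩ := he
    rcases Int.emod_two_eq_zero_or_one m with h | h
    · refine ⟨(e / 4).toNat, 0, ?_⟩
      omega
    · refine ⟨((e - 6) / 4).toNat, 1, ?_⟩
      omega
  have hlim : Filter.Tendsto (fun z : ℍ => ModularForm.E₄ z ^ a * ModularForm.E₆ z ^ b)
      atImInfty (nhds 1) := by
    have := (StabAux.tendsto_E₄.pow a).mul (tendsto_E₆.pow b)
    simpa using this
  obtain ⟨G, hG⟩ := exists_levelOne_of e
    (fun z : ℍ => ModularForm.E₄ z ^ a * ModularForm.E₆ z ^ b)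
    (((ModularFormClass.holo ModularForm.E₄).pow a).mul
      ((ModularFormClass.holo ModularForm.E₆).pow b))
    (fun γ z => by
      have hd : denom γ z ≠ 0 := denom_ne_zero _ _
      rw [Forms_lvl1_eqn ModularForm.E₄ γ z, Forms_lvl1_eqn ModularForm.E₆ γ z, mul_pow, mul_pow,
        hab, zpow_add₀ hd, zpow_mul, zpow_mul, zpow_natCast, zpow_natCast]
      ring)
    (hlim.isBigO_one ℝ)
  refine ⟨G, ?_⟩
  rw [hG]
  exact hlim

/-- A level-one form is bounded at `i∞`; in the form used later: `Δ · b → 0` at `i∞`. -/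
theorem tendsto_Delta_mul_levelOne {e : ℤ} (b : ModularForm 𝒮ℒ e) :
    Filter.Tendsto (fun z : ℍ => Δf z * b z) atImInfty (nhds 0) := by
  have hb : IsBoundedAtImInfty (b : ℍ → ℂ) := ModularFormClass.bdd_at_infty b
  have hb' : Filter.IsBoundedUnder (· ≤ ·) atImInfty ((‖·‖) ∘ (b : ℍ → ℂ)) :=
    (Asymptotics.isBigO_one_iff ℝ).mp hb
  exact tendsto_Delta_zero.zero_mul_isBoundedUnder_le hb'

/-- `Δ · b` as a level-one form. -/
theorem exists_Delta_mulL1 {e e' : ℤ} (he : e' = e + 12) (b : ModularForm 𝒮ℒ e) :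
    ∃ a : ModularForm 𝒮ℒ e', ∀ z : ℍ, a z = Δf z * b z := by
  obtain ⟨g, hg⟩ := exists_levelOne_of e' (fun z : ℍ => Δf z * b z)
    (Forms_mdiff_Δf.mul (ModularFormClass.holo b))
    (fun γ z => by
      have hd : denom γ z ≠ 0 := denom_ne_zero _ _
      rw [Forms_Δf_smul γ z, Forms_lvl1_eqn b γ z, he, zpow_add₀ hd]
      ring)
    ((tendsto_Delta_mul_levelOne b).isBigO_one ℝ)
  exact ⟨g, fun z => by rw [hg]⟩

end Fermat.Agent.S20.CuspAux
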