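import Fermat.Agent.S20.Cusp.Defs

/-!
# S20 / Cusp / Growth: a holomorphic `1`-periodic function on `ℍ` of growth `O(e^{2πa·Im z})`,
`a < 1`, is bounded at `i∞`.
-/

set_option autoImplicit false

open UpperHalfPlane ModularForm CongruenceSubgroup
open scoped MatrixGroups ModularForm Manifold
open Fermat.Agent.S23

namespace Fermat.Agent.S20.CuspAux

/-- The translation law `u (T • z) = u z` gives `1`-periodicity of `u ∘ ofComplex`. -/
theorem periodic_of_T_smul (u : ℍ → ℂ) (per : ∀ z : ℍ, u (ModularGroup.T • z) = u z) :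
    Function.Periodic (u ∘ ofComplex) ((1 : ℝ) : ℂ) := by
  intro w
  by_cases hw : 0 < w.im
  · have hw' : 0 < (w + ((1 : ℝ) : ℂ)).im := by simpa using hw
    simp only [Function.comp_apply, ofComplex_apply_of_im_pos hw', ofComplex_apply_of_im_pos hw]
    rw [← per ⟨w, hw⟩]
    congr 1
    ext
    rw [modular_T_smul, coe_vadd]
    simp [add_comm]
  · have hw0 : w.im ≤ 0 := not_lt.mp hw
    have hw' : (w + ((1 : ℝ) : ℂ)).im ≤ 0 := by simpa using hw0
    simp only [Function.comp_apply]
    rw [ofComplex_apply_eq_of_im_nonpos hw' hw0]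

/-- Moderate growth + periodicity + holomorphy ⇒ bounded at `i∞` (removable singularity of the
cusp function). -/
theorem isBoundedAtImInfty_of_growth (u : ℍ → ℂ) (hol : MDiff u)
    (per : ∀ z : ℍ, u (ModularGroup.T • z) = u z) (C A a : ℝ) (ha : a < 1)
    (hgr : ∀ z : ℍ, A ≤ z.im → ‖u z‖ ≤ C * Real.exp (2 * Real.pi * a * z.im)) :
    IsBoundedAtImInfty u := by
  have hper : Function.Periodic (u ∘ ofComplex) ((1 : ℝ) : ℂ) := periodic_of_T_smul u per
  set F : ℂ → ℂ := Function.Periodic.cuspFunction 1 (u ∘ ofComplex) with hF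
  -- (i) differentiability of the cusp function on the punctured unit disc
  have hdiff : DifferentiableOn ℂ F (Metric.ball 0 1 \ {0}) := by
    intro q hq
    have hq1 : ‖q‖ < 1 := mem_ball_zero_iff.mp hq.1
    have hq0 : q ≠ 0 := hq.2
    have him := Function.Periodic.im_invQParam_pos_of_norm_lt_one one_pos hq1 hq0
    have key := hper.differentiableAt_cuspFunction one_ne_zero
      (UpperHalfPlane.mdifferentiableAt_iff.mp (hol ⟨_, him⟩))
    rw [Function.Periodic.qParam_right_inv one_ne_zero hq0] at key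
    exact key.differentiableWithinAt
  -- (ii) growth of the cusp function near `0`
  have hlog : Filter.Tendsto (fun q : ℂ => Real.log ‖q‖) (nhdsWithin 0 {0}ᶜ) Filter.atBot :=
    Real.tendsto_log_nhdsGT_zero.comp tendsto_norm_nhdsNE_zero
  have hev : ∀ᶠ q in nhdsWithin (0 : ℂ) {0}ᶜ, ‖F q‖ ≤ C * Real.exp (-a * Real.log ‖q‖) := by
    have h1 : ∀ᶠ q in nhdsWithin (0 : ℂ) {0}ᶜ,
        max A 1 ≤ (Function.Periodic.invQParam 1 q).im :=
      (Function.Periodic.invQParam_tendsto one_pos).eventually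
        (Filter.preimage_mem_comap (Filter.Ici_mem_atTop (max A 1)))
    filter_upwards [h1, self_mem_nhdsWithin] with q hq hq0
    have hpos : 0 < (Function.Periodic.invQParam 1 q).im :=
      lt_of_lt_of_le one_pos ((le_max_right _ _).trans hq)
    have hFq : F q = u ⟨Function.Periodic.invQParam 1 q, hpos⟩ := by
      rw [hF, Function.Periodic.cuspFunction_eq_of_nonzero _ _ hq0, Function.comp_apply,
        ofComplex_apply_of_im_pos hpos]
    rw [hFq]
    refine (hgr _ ((le_max_left _ _).trans hq)).trans (le_of_eq ?_)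
    congr 2
    change 2 * Real.pi * a * (Function.Periodic.invQParam 1 q).im = _
    rw [Function.Periodic.im_invQParam]
    field_simp
  have ho : (fun q => F q - F 0) =o[nhdsWithin (0 : ℂ) {0}ᶜ] fun q => (q - 0)⁻¹ := by
    rw [Asymptotics.isLittleO_iff_tendsto']
    · have hb : Filter.Tendsto
          (fun q : ℂ => C * Real.exp ((1 - a) * Real.log ‖q‖) + ‖q‖ * ‖F 0‖)
          (nhdsWithin (0 : ℂ) {0}ᶜ) (nhds 0) := by
        have h1 : Filter.Tendsto (fun q : ℂ => Real.exp ((1 - a) * Real.log ‖q‖))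
            (nhdsWithin (0 : ℂ) {0}ᶜ) (nhds 0) :=
          Real.tendsto_exp_atBot.comp (hlog.const_mul_atBot (by linarith))
        have h2 : Filter.Tendsto (fun q : ℂ => ‖q‖) (nhdsWithin (0 : ℂ) {0}ᶜ) (nhds 0) :=
          (tendsto_norm_zero (E := ℂ)).mono_left nhdsWithin_le_nhds
        simpa using (h1.const_mul C).add (h2.mul_const ‖F 0‖)
      refine squeeze_zero_norm' ?_ hb
      filter_upwards [hev, self_mem_nhdsWithin] with q hq hq0
      have hq0' : q ≠ 0 := hq0
      have hqn : 0 < ‖q‖ := norm_pos_iff.mpr hq0'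
      have e1 : (F q - F 0) / (q - 0)⁻¹ = q * F q - q * F 0 := by
        rw [sub_zero, div_inv_eq_mul]; ring
      rw [e1]
      have e2 : ‖q‖ * (C * Real.exp (-a * Real.log ‖q‖))
          = C * Real.exp ((1 - a) * Real.log ‖q‖) := by
        have : Real.exp ((1 - a) * Real.log ‖q‖)
            = ‖q‖ * Real.exp (-a * Real.log ‖q‖) := by
          rw [show (1 - a) * Real.log ‖q‖ = Real.log ‖q‖ + -a * Real.log ‖q‖ by ring,
            Real.exp_add, Real.exp_log hqn]
        rw [this]; ring
      calc ‖q * F q - q * F 0‖ ≤ ‖q * F q‖ + ‖q * F 0‖ := norm_sub_le _ _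
        _ = ‖q‖ * ‖F q‖ + ‖q‖ * ‖F 0‖ := by rw [norm_mul, norm_mul]
        _ ≤ ‖q‖ * (C * Real.exp (-a * Real.log ‖q‖)) + ‖q‖ * ‖F 0‖ := by
          gcongr
        _ = C * Real.exp ((1 - a) * Real.log ‖q‖) + ‖q‖ * ‖F 0‖ := by rw [e2]
    · filter_upwards [self_mem_nhdsWithin] with q hq0 h
      have hq0' : q ≠ 0 := hq0
      simp [hq0'] at h
  -- (iii) Riemann's removable singularity theorem
  have hball : Metric.ball (0 : ℂ) 1 ∈ nhds (0 : ℂ) := Metric.ball_mem_nhds 0 one_pos
  have hD := Complex.differentiableOn_update_limUnder_of_isLittleO hball hdiff ho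
  rw [hF, ← Function.Periodic.cuspFunction_zero_eq_limUnder_nhds_ne, Function.update_eq_self,
    ← hF] at hD
  have hcont : ContinuousAt F 0 := (hD.differentiableAt hball).continuousAt
  -- (iv) back to `u`
  have hlim : Filter.Tendsto u atImInfty (nhds (F 0)) := by
    have := hcont.tendsto.comp (UpperHalfPlane.qParam_tendsto_atImInfty one_pos)
    refine this.congr fun τ => ?_
    simpa [hF, UpperHalfPlane.cuspFunction] using
      UpperHalfPlane.eq_cuspFunction (f := u) τ one_ne_zero hper
  exact hlim.isBigO_one ℝ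

end Fermat.Agent.S20.CuspAux
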