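import Fermat.Agent.S20.Cusp.Defs

/-!
# S20 / Cusp / Idem: algebra of the isotypic projectors `pr N M r` and of `Et N M t`
(`M` a matrix with `M ^ N = 1`).
-/

set_option autoImplicit false

open UpperHalfPlane ModularForm CongruenceSubgroup
open scoped MatrixGroups ModularForm Manifold
open Fermat.Agent.S23

namespace Fermat.Agent.S20.CuspAux

variable {n : Type*} [Fintype n] [DecidableEq n] {N : ℕ} {M : Matrix n n ℂ}

theorem zeta_ne_zero (N : ℕ) : zeta N ≠ 0 := by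
  unfold zeta
  exact Complex.exp_ne_zero _

private theorem Idem_zeta_isPrimitiveRoot (hN : N ≠ 0) : IsPrimitiveRoot (zeta N) N :=
  Complex.isPrimitiveRoot_exp N hN

theorem zeta_pow (hN : N ≠ 0) : zeta N ^ N = 1 := by
  exact (Idem_zeta_isPrimitiveRoot hN).pow_eq_one

/-- `∑_{a<N} (ζ^r / ζ^s)^a = N` if `r = s`, `0` otherwise (`r, s < N`). -/
theorem sum_zeta_pow (hN : N ≠ 0) {r s : ℕ} (hr : r < N) (hs : s < N) :
    ∑ a ∈ Finset.range N, (zeta N ^ r * ((zeta N)⁻¹) ^ s) ^ a = if r = s then (N : ℂ) else 0 := by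
  have hz := zeta_ne_zero N
  split_ifs with h
  · subst h
    have h1 : zeta N ^ r * ((zeta N)⁻¹) ^ r = 1 := by
      rw [← mul_pow, mul_inv_cancel₀ hz, one_pow]
    rw [h1]
    simp
  · have hηN : (zeta N ^ r * ((zeta N)⁻¹) ^ s) ^ N = 1 := by
      rw [mul_pow, ← pow_mul, ← pow_mul, mul_comm r N, mul_comm s N, pow_mul, pow_mul, inv_pow,
        zeta_pow hN]
      simp
    have hη1 : zeta N ^ r * ((zeta N)⁻¹) ^ s ≠ 1 := by
      intro h1
      apply h
      apply (Idem_zeta_isPrimitiveRoot hN).pow_inj hr hs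
      have h2 : zeta N ^ r = (zeta N ^ r * ((zeta N)⁻¹) ^ s) * zeta N ^ s := by
        rw [inv_pow, mul_assoc, inv_mul_cancel₀ (pow_ne_zero _ hz), mul_one]
      rw [h2, h1, one_mul]
    have h3 := geom_sum_mul (zeta N ^ r * ((zeta N)⁻¹) ^ s) N
    rw [hηN, sub_self] at h3
    rcases mul_eq_zero.mp h3 with h0 | h0
    · exact h0
    · exact absurd (sub_eq_zero.mp h0) hη1

theorem M_mul_pr (hN : N ≠ 0) (hM : M ^ N = 1) (r : ℕ) :
    M * pr N M r = zeta N ^ r • pr N M r := by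
  have hz := zeta_ne_zero N
  unfold pr
  rw [Matrix.mul_smul, smul_comm (zeta N ^ r)]
  congr 1
  rw [Finset.mul_sum, Finset.smul_sum]
  have h1 : ∀ a, M * (((zeta N)⁻¹) ^ (a * r) • M ^ a) =
      zeta N ^ r • (((zeta N)⁻¹) ^ ((a + 1) * r) • M ^ (a + 1)) := by
    intro a
    rw [Matrix.mul_smul, smul_smul, ← pow_succ']
    congr 1
    rw [add_mul, one_mul, pow_add, mul_comm (zeta N ^ r), mul_assoc, ← mul_pow,
      inv_mul_cancel₀ hz, one_pow, mul_one]
  simp_rw [h1]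
  rw [← Finset.smul_sum, ← Finset.smul_sum]
  congr 1
  have h2 := Finset.sum_range_succ (fun a => ((zeta N)⁻¹) ^ (a * r) • M ^ a) N
  have h3 := Finset.sum_range_succ' (fun a => ((zeta N)⁻¹) ^ (a * r) • M ^ a) N
  rw [h2] at h3
  have h4 : ((zeta N)⁻¹) ^ (N * r) • M ^ N = ((zeta N)⁻¹) ^ (0 * r) • M ^ 0 := by
    rw [pow_mul, inv_pow, zeta_pow hN, hM]
    simp
  rw [h4] at h3
  exact (add_right_cancel h3).symm

private theorem Idem_pow_mul_pr (hN : N ≠ 0) (hM : M ^ N = 1) (b r : ℕ) :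
    M ^ b * pr N M r = zeta N ^ (b * r) • pr N M r := by
  induction b with
  | zero => simp
  | succ b ih =>
    rw [pow_succ, mul_assoc, M_mul_pr hN hM, Matrix.mul_smul, ih, smul_smul, add_mul, one_mul,
      pow_add, mul_comm]

theorem pr_mul_pr (hN : N ≠ 0) (hM : M ^ N = 1) {r s : ℕ} (hr : r < N) (hs : s < N) :
    pr N M r * pr N M s = if r = s then pr N M r else 0 := by
  have hz := zeta_ne_zero N
  have hNC : (N : ℂ) ≠ 0 := Nat.cast_ne_zero.mpr hN
  have h1 : pr N M r * pr N M s =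
      ((N : ℂ)⁻¹ * ∑ a ∈ Finset.range N, (zeta N ^ s * ((zeta N)⁻¹) ^ r) ^ a) • pr N M s := by
    conv_lhs => rw [pr]
    rw [Matrix.smul_mul, Finset.sum_mul, ← smul_smul, Finset.sum_smul]
    congr 1
    apply Finset.sum_congr rfl
    intro a _
    rw [Matrix.smul_mul, Idem_pow_mul_pr hN hM, smul_smul]
    congr 1
    rw [mul_pow, ← pow_mul, ← pow_mul, mul_comm a r, mul_comm a s, mul_comm]
  rw [h1, sum_zeta_pow hN hs hr]
  by_cases h : r = s
  · subst h
    simp [hNC]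
  · have h' : ¬ s = r := fun h' => h h'.symm
    simp [h, h']

theorem sum_pr (hN : N ≠ 0) (hM : M ^ N = 1) : ∑ r ∈ Finset.range N, pr N M r = 1 := by
  have _ := hM
  have hNC : (N : ℂ) ≠ 0 := Nat.cast_ne_zero.mpr hN
  have h1 : ∑ r ∈ Finset.range N, pr N M r =
      (N : ℂ)⁻¹ • ∑ a ∈ Finset.range N,
        (∑ r ∈ Finset.range N, (zeta N ^ 0 * ((zeta N)⁻¹) ^ a) ^ r) • M ^ a := by
    simp only [pr]
    rw [← Finset.smul_sum, Finset.sum_comm]
    congr 1
    apply Finset.sum_congr rfl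
    intro a _
    rw [Finset.sum_smul]
    apply Finset.sum_congr rfl
    intro r _
    rw [pow_zero, one_mul, ← pow_mul]
  rw [h1]
  have h2 : ∀ a ∈ Finset.range N,
      (∑ r ∈ Finset.range N, (zeta N ^ 0 * ((zeta N)⁻¹) ^ a) ^ r) • M ^ a =
        if 0 = a then (N : ℂ) • (1 : Matrix n n ℂ) else 0 := by
    intro a ha
    rw [sum_zeta_pow hN (Nat.pos_of_ne_zero hN) (Finset.mem_range.mp ha)]
    split_ifs with h
    · subst h
      simp
    · simp
  rw [Finset.sum_congr rfl h2, Finset.sum_ite_eq, if_pos (Finset.mem_range.mpr (Nat.pos_of_ne_zero hN)),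
    smul_smul, inv_mul_cancel₀ hNC, one_smul]

theorem Et_one (hN : N ≠ 0) (hM : M ^ N = 1) : Et N M 1 = 1 := by
  unfold Et
  simp only [one_pow, one_smul]
  exact sum_pr hN hM

theorem Et_mul (hN : N ≠ 0) (hM : M ^ N = 1) (t s : ℂ) :
    Et N M t * Et N M s = Et N M (t * s) := by
  unfold Et
  rw [Finset.sum_mul_sum]
  apply Finset.sum_congr rfl
  intro r hr
  have h1 : ∀ u ∈ Finset.range N, (t ^ r • pr N M r) * (s ^ u • pr N M u) =
      if r = u then (t * s) ^ r • pr N M r else 0 := by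
    intro u hu
    rw [Matrix.smul_mul, Matrix.mul_smul, pr_mul_pr hN hM (Finset.mem_range.mp hr) (Finset.mem_range.mp hu)]
    split_ifs with h
    · subst h
      rw [smul_smul, mul_pow]
    · simp
  rw [Finset.sum_congr rfl h1, Finset.sum_ite_eq, if_pos hr]

theorem M_mul_Et (hN : N ≠ 0) (hM : M ^ N = 1) (t : ℂ) :
    M * Et N M t = Et N M (zeta N * t) := by
  unfold Et
  rw [Finset.mul_sum]
  apply Finset.sum_congr rfl
  intro r _
  rw [Matrix.mul_smul, M_mul_pr hN hM, smul_smul, mul_pow, mul_comm]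

theorem Et_inv (hN : N ≠ 0) (hM : M ^ N = 1) {t : ℂ} (ht : t ≠ 0) :
    (Et N M t)⁻¹ = Et N M t⁻¹ := by
  apply Matrix.inv_eq_right_inv
  rw [Et_mul hN hM, mul_inv_cancel₀ ht, Et_one hN hM]

/-- Entries of `Et N M t` are polynomials of degree `< N` in `t` (no hypothesis on `M`). -/
theorem Et_bound (N : ℕ) (M : Matrix n n ℂ) :
    ∃ C : ℝ, 0 ≤ C ∧ ∀ (t : ℂ) (i j : n),
      (‖t‖ ≤ 1 → ‖Et N M t i j‖ ≤ C) ∧ (1 ≤ ‖t‖ → ‖Et N M t i j‖ ≤ C * ‖t‖ ^ (N - 1)) := by
  refine ⟨∑ r ∈ Finset.range N, ∑ i, ∑ j, ‖pr N M r i j‖, ?_, ?_⟩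
  · exact Finset.sum_nonneg fun r _ => Finset.sum_nonneg fun i _ =>
      Finset.sum_nonneg fun j _ => norm_nonneg _
  · intro t i j
    have h0 : ‖Et N M t i j‖ ≤ ∑ r ∈ Finset.range N, ‖t‖ ^ r * ‖pr N M r i j‖ := by
      have h1 : Et N M t i j = ∑ r ∈ Finset.range N, t ^ r * pr N M r i j := by
        unfold Et
        rw [Matrix.sum_apply]
        apply Finset.sum_congr rfl
        intro r _
        rw [Matrix.smul_apply, smul_eq_mul]
      rw [h1]
      refine (norm_sum_le _ _).trans (le_of_eq ?_)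
      apply Finset.sum_congr rfl
      intro r _
      rw [norm_mul, norm_pow]
    have hle : ∀ r ∈ Finset.range N, ‖pr N M r i j‖ ≤ ∑ i, ∑ j, ‖pr N M r i j‖ := by
      intro r _
      have h1 : ‖pr N M r i j‖ ≤ ∑ j, ‖pr N M r i j‖ :=
        Finset.single_le_sum (f := fun j => ‖pr N M r i j‖) (fun j _ => norm_nonneg _)
          (Finset.mem_univ j)
      have h2 : ∑ j, ‖pr N M r i j‖ ≤ ∑ i, ∑ j, ‖pr N M r i j‖ :=
        Finset.single_le_sum (f := fun i => ∑ j, ‖pr N M r i j‖)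
          (fun i _ => Finset.sum_nonneg fun j _ => norm_nonneg _) (Finset.mem_univ i)
      exact h1.trans h2
    constructor
    · intro ht
      refine h0.trans (Finset.sum_le_sum fun r hr => ?_)
      calc ‖t‖ ^ r * ‖pr N M r i j‖ ≤ 1 * ‖pr N M r i j‖ :=
            mul_le_mul_of_nonneg_right (pow_le_one₀ (norm_nonneg _) ht) (norm_nonneg _)
        _ = ‖pr N M r i j‖ := one_mul _
        _ ≤ _ := hle r hr
    · intro ht
      rw [Finset.sum_mul]
      refine h0.trans (Finset.sum_le_sum fun r hr => ?_)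
      have hr' : r ≤ N - 1 := Nat.le_sub_one_of_lt (Finset.mem_range.mp hr)
      calc ‖t‖ ^ r * ‖pr N M r i j‖ ≤ ‖t‖ ^ (N - 1) * ‖pr N M r i j‖ :=
            mul_le_mul_of_nonneg_right (pow_le_pow_right₀ ht hr') (norm_nonneg _)
        _ ≤ ‖t‖ ^ (N - 1) * ∑ i, ∑ j, ‖pr N M r i j‖ :=
            mul_le_mul_of_nonneg_left (hle r hr) (pow_nonneg (norm_nonneg _) _)
        _ = _ := mul_comm _ _

end Fermat.Agent.S20.CuspAux
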