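import Fermat.Agent.S20.Cusp.Growth

/-!
# S20 / Cusp / Limits: limits and exponential decay of periodic holomorphic functions at `i∞`;
size of `Δ` at `i∞`.
-/

set_option autoImplicit false

open UpperHalfPlane ModularForm CongruenceSubgroup
open scoped MatrixGroups ModularForm Manifold
open Fermat.Agent.S23

namespace Fermat.Agent.S20.CuspAux

/-- A bounded holomorphic `1`-periodic function has a limit at `i∞`. -/
theorem tendsto_of_periodic (u : ℍ → ℂ) (hol : MDiff u)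
    (per : ∀ z : ℍ, u (ModularGroup.T • z) = u z) (bdd : IsBoundedAtImInfty u) :
    ∃ ℓ : ℂ, Filter.Tendsto u atImInfty (nhds ℓ) := by
  have hper : Function.Periodic (u ∘ ofComplex) ((1 : ℝ) : ℂ) := periodic_of_T_smul u per
  have hana : AnalyticAt ℂ (cuspFunction 1 u) 0 :=
    UpperHalfPlane.analyticAt_cuspFunction_zero one_pos hper hol bdd
  refine ⟨cuspFunction 1 u 0, ?_⟩
  have hcomp : (cuspFunction 1 u ∘ fun τ : ℍ => Function.Periodic.qParam 1 τ) = u := by
    funext τ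
    exact UpperHalfPlane.eq_cuspFunction τ one_ne_zero hper
  have h2 := hana.continuousAt.tendsto.comp (qParam_tendsto_atImInfty one_pos)
  rw [hcomp] at h2
  exact h2

/-- A holomorphic `1`-periodic function tending to `0` at `i∞` is `O(e^{-2π Im z})`. -/
theorem exp_decay_of_tendsto_zero (u : ℍ → ℂ) (hol : MDiff u)
    (per : ∀ z : ℍ, u (ModularGroup.T • z) = u z)
    (h0 : Filter.Tendsto u atImInfty (nhds 0)) :
    ∃ C A : ℝ, ∀ z : ℍ, A ≤ z.im → ‖u z‖ ≤ C * Real.exp (-(2 * Real.pi * z.im)) := by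
  have hper : Function.Periodic (u ∘ ofComplex) ((1 : ℝ) : ℂ) := periodic_of_T_smul u per
  have hz : IsZeroAtImInfty u := h0
  have hO := UpperHalfPlane.IsZeroAtImInfty.exp_decay_atImInfty hz one_pos hper hol
    hz.isBoundedAtImInfty
  rw [Asymptotics.isBigO_iff] at hO
  obtain ⟨c, hc⟩ := hO
  obtain ⟨A, hA⟩ := (atImInfty_mem _).mp hc
  refine ⟨c, A, fun z hzA => ?_⟩
  have h1 : ‖u z‖ ≤ c * ‖Real.exp (-2 * Real.pi * z.im / 1)‖ := hA z hzA
  rw [Real.norm_of_nonneg (Real.exp_pos _).le] at h1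
  have h2 : -2 * Real.pi * z.im / 1 = -(2 * Real.pi * z.im) := by ring
  rw [h2] at h1
  exact h1

/-- The norm of `𝕢 1 z`. -/
private theorem Limits_norm_q (z : ℍ) :
    ‖Function.Periodic.qParam 1 (z : ℂ)‖ = Real.exp (-(2 * Real.pi * z.im)) := by
  rw [Function.Periodic.norm_qParam, UpperHalfPlane.coe_im]
  congr 1
  ring

/-- `|Δ(z)| ≥ c e^{-2π Im z}` near `i∞`. -/
theorem Delta_lower :
    ∃ c A : ℝ, 0 < c ∧ ∀ z : ℍ, A ≤ z.im → c * Real.exp (-(2 * Real.pi * z.im)) ≤ ‖Δf z‖ := by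
  have hprod := ModularForm.tendsto_atImInfty_tprod_one_sub_eta_q_pow.eventually
    (Metric.ball_mem_nhds 1 (by norm_num : (0 : ℝ) < 1/2))
  obtain ⟨A, hA⟩ := (atImInfty_mem _).mp hprod
  refine ⟨1 / 2, A, by norm_num, fun z hzA => ?_⟩
  have hτ : dist (∏' n, (1 - ModularForm.eta_q n z) ^ 24) 1 < 1 / 2 := hA z hzA
  show _ ≤ ‖ModularForm.discriminant z‖
  rw [ModularForm.discriminant_eq_q_prod, norm_mul, Limits_norm_q]
  have hsub : ‖∏' n, (1 - ModularForm.eta_q n z) ^ 24 - 1‖ < 1 / 2 := by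
    rwa [Complex.dist_eq] at hτ
  have h1 := norm_sub_norm_le 1 (∏' n, (1 - ModularForm.eta_q n z) ^ 24)
  have hprod_bound : 1 / 2 ≤ ‖∏' n, (1 - ModularForm.eta_q n z) ^ 24‖ := by
    rw [norm_one, norm_sub_rev] at h1
    linarith
  have hpos := (Real.exp_pos (-(2 * Real.pi * z.im))).le
  nlinarith [mul_le_mul_of_nonneg_left hprod_bound hpos]

/-- `|Δ(z)| ≤ C e^{-2π Im z}` near `i∞`. -/
theorem Delta_upper :
    ∃ C A : ℝ, ∀ z : ℍ, A ≤ z.im → ‖Δf z‖ ≤ C * Real.exp (-(2 * Real.pi * z.im)) := by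
  have hprod := ModularForm.tendsto_atImInfty_tprod_one_sub_eta_q_pow.eventually
    (Metric.ball_mem_nhds 1 (by norm_num : (0 : ℝ) < 1))
  obtain ⟨A, hA⟩ := (atImInfty_mem _).mp hprod
  refine ⟨2, A, fun z hzA => ?_⟩
  have hτ : dist (∏' n, (1 - ModularForm.eta_q n z) ^ 24) 1 < 1 := hA z hzA
  show ‖ModularForm.discriminant z‖ ≤ _
  rw [ModularForm.discriminant_eq_q_prod, norm_mul, Limits_norm_q]
  have hsub : ‖∏' n, (1 - ModularForm.eta_q n z) ^ 24 - 1‖ < 1 := by
    rwa [Complex.dist_eq] at hτ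
  have h1 := norm_sub_norm_le (∏' n, (1 - ModularForm.eta_q n z) ^ 24) 1
  have hprod_bound : ‖∏' n, (1 - ModularForm.eta_q n z) ^ 24‖ ≤ 2 := by
    rw [norm_one] at h1
    linarith
  have hpos := (Real.exp_pos (-(2 * Real.pi * z.im))).le
  rw [mul_comm]
  exact mul_le_mul_of_nonneg_right hprod_bound hpos

/-- `Δ(z) / e^{2πiz} → 1` at `i∞`. -/
theorem tendsto_Delta_div_q :
    Filter.Tendsto (fun z : ℍ => Δf z / Complex.exp (2 * Real.pi * Complex.I * (z : ℂ)))
      atImInfty (nhds 1) := by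
  refine ModularForm.tendsto_atImInfty_tprod_one_sub_eta_q_pow.congr (fun z => ?_)
  show _ = ModularForm.discriminant z / _
  rw [ModularForm.discriminant_eq_q_prod]
  have hq : Function.Periodic.qParam 1 (z : ℂ) =
      Complex.exp (2 * Real.pi * Complex.I * (z : ℂ)) := by
    simp [Function.Periodic.qParam]
  rw [hq, mul_div_assoc, mul_comm, div_mul_cancel₀]
  exact Complex.exp_ne_zero _

theorem tendsto_Delta_zero : Filter.Tendsto (fun z : ℍ => Δf z) atImInfty (nhds 0) := by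
  exact ModularForm.discriminant_isZeroAtImInfty

/-- `E₆ → 1` at `i∞` (for `E₄` see `Fermat.Agent.S23.StabAux.tendsto_E₄`). -/
theorem tendsto_E₆ :
    Filter.Tendsto (fun z : ℍ => ModularForm.E₆ z) atImInfty (nhds 1) := by
  have hana : AnalyticAt ℂ (cuspFunction 1 (ModularForm.E₆ : ℍ → ℂ)) 0 :=
    ModularFormClass.analyticAt_cuspFunction_zero ModularForm.E₆ one_pos
      one_mem_strictPeriods_SL
  have h0 : cuspFunction 1 (ModularForm.E₆ : ℍ → ℂ) 0 = 1 := by
    have h1 := EisensteinSeries.E_qExpansion_coeff_zero (k := 6) (by norm_num) (by decide)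
    simpa [qExpansion_coeff] using h1
  have hcomp : (cuspFunction 1 (ModularForm.E₆ : ℍ → ℂ) ∘
      fun τ : ℍ => Function.Periodic.qParam 1 τ) = fun z : ℍ => ModularForm.E₆ z := by
    funext τ
    exact SlashInvariantFormClass.eq_cuspFunction ModularForm.E₆ τ one_mem_strictPeriods_SL
      one_ne_zero
  have h2 := hana.continuousAt.tendsto.comp (qParam_tendsto_atImInfty one_pos)
  rw [h0, hcomp] at h2
  exact h2

end Fermat.Agent.S20.CuspAux
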