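import Fermat.Agent.S20.Cusp.Idem
import Fermat.Agent.S20.Cusp.SigmaPow
import Fermat.Agent.S20.Cusp.Forms

/-!
# S20 / Cusp / Twist: the twisted rows `tw g z` are `1`-periodic, holomorphic, bounded at `i∞`.
-/

set_option autoImplicit false

open UpperHalfPlane ModularForm CongruenceSubgroup
open scoped MatrixGroups ModularForm Manifold
open Fermat.Agent.S23

namespace Fermat.Agent.S20.CuspAux

variable {N : ℕ} [NeZero N]

theorem tw_T_smul {k : ℤ} (g : ModularForm (Gam N) k) (z : ℍ) (j : Fin (psi N)) :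
    tw g (ModularGroup.T • z) j = tw g z j := by
  have hN : N ≠ 0 := NeZero.ne N
  have hM : MT N ^ N = 1 := MT_pow
  have h1 : tw g (ModularGroup.T • z) j
      = Matrix.vecMul (fun j' => cj g j' (ModularGroup.T • z))
          (Et N (MT N) (qN N (ModularGroup.T • z))⁻¹) j := rfl
  have h2 : tw g z j = Matrix.vecMul (fun j' => cj g j' z) (Et N (MT N) (qN N z)⁻¹) j := rfl
  have h3 : (fun j' => cj g j' (ModularGroup.T • z))
      = Matrix.vecMul (fun j' => cj g j' z) (MT N) := by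
    funext j'
    rw [vecMul_permM, cj_T_smul]
  have h4 : zeta N * (zeta N * qN N z)⁻¹ = (qN N z)⁻¹ := by
    have hz := zeta_ne_zero N
    have hq := qN_ne_zero N z
    field_simp
  rw [h1, h2, h3, Matrix.vecMul_vecMul, qN_T_smul, M_mul_Et hN hM, h4]

theorem tw_mdiff {k : ℤ} (g : ModularForm (Gam N) k) (j : Fin (psi N)) :
    MDiff (fun z : ℍ => tw g z j) := by
  have h : (fun z : ℍ => tw g z j)
      = ∑ j' : Fin (psi N), ∑ r ∈ Finset.range N,
          (cj g j' * ((fun z : ℍ => ((qN N z)⁻¹) ^ r) * (fun _ => pr N (MT N) r j' j))) := by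
    funext z
    simp only [tw, Et, Finset.sum_apply, Matrix.sum_apply, Matrix.smul_apply, Pi.mul_apply,
      smul_eq_mul, Finset.mul_sum]
  rw [h]
  exact MDifferentiable.sum fun j' _ => MDifferentiable.sum fun r _ =>
    (cj_mdiff g j').mul ((mdiff_qN_inv_pow r).mul mdifferentiable_const)

theorem tw_bdd {k : ℤ} (g : ModularForm (Gam N) k) (j : Fin (psi N)) :
    IsBoundedAtImInfty (fun z : ℍ => tw g z j) := by
  have hN : N ≠ 0 := NeZero.ne N
  have hNpos : (0 : ℝ) < N := by exact_mod_cast Nat.pos_of_ne_zero hN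
  obtain ⟨C₀, hC₀, hE⟩ := Et_bound N (MT N)
  have hb : ∀ j' : Fin (psi N), ∃ B A : ℝ, ∀ z : ℍ, A ≤ z.im → ‖cj g j' z‖ ≤ B := fun j' =>
    UpperHalfPlane.isBoundedAtImInfty_iff.mp (cj_isBoundedAtImInfty g j')
  choose B A hBA using hb
  refine isBoundedAtImInfty_of_growth (fun z => tw g z j) (tw_mdiff g j)
    (fun z => tw_T_smul g z j) ((∑ j', |B j'|) * C₀) (∑ j', |A j'|) (((N : ℝ) - 1) / N) ?_ ?_
  · rw [div_lt_one hNpos]
    linarith
  · intro z hz
    have hnorm : ‖(qN N z)⁻¹‖ ^ (N - 1)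
        = Real.exp (2 * Real.pi * (((N : ℝ) - 1) / N) * z.im) := by
      rw [norm_qN_inv, ← Real.exp_nat_mul, Nat.cast_sub (Nat.one_le_iff_ne_zero.mpr hN)]
      congr 1
      push_cast
      field_simp
    calc ‖tw g z j‖ ≤ ∑ j', ‖cj g j' z * Et N (MT N) (qN N z)⁻¹ j' j‖ := norm_sum_le _ _
      _ ≤ ∑ j', |B j'| * (C₀ * ‖(qN N z)⁻¹‖ ^ (N - 1)) := by
        refine Finset.sum_le_sum fun j' _ => ?_
        rw [norm_mul]
        refine mul_le_mul ?_ ((hE _ j' j).2 (one_le_norm_qN_inv z)) (norm_nonneg _) (abs_nonneg _)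
        refine (hBA j' z (le_trans ?_ hz)).trans (le_abs_self _)
        calc A j' ≤ |A j'| := le_abs_self _
          _ ≤ ∑ j', |A j'| :=
            Finset.single_le_sum (fun i _ => abs_nonneg (A i)) (Finset.mem_univ j')
      _ = (∑ j', |B j'|) * C₀ * Real.exp (2 * Real.pi * (((N : ℝ) - 1) / N) * z.im) := by
        rw [hnorm, ← Finset.sum_mul]
        ring

theorem tw_tendsto {k : ℤ} (g : ModularForm (Gam N) k) (j : Fin (psi N)) :
    ∃ ℓ : ℂ, Filter.Tendsto (fun z : ℍ => tw g z j) atImInfty (nhds ℓ) := by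
  exact tendsto_of_periodic (fun z => tw g z j) (tw_mdiff g j) (fun z => tw_T_smul g z j)
    (tw_bdd g j)

/-- Untwisting: `row = tw ᵥ* E(q_N)`. -/
theorem cj_eq_sum_tw {k : ℤ} (g : ModularForm (Gam N) k) (j : Fin (psi N)) (z : ℍ) :
    cj g j z = ∑ j', tw g z j' * Et N (MT N) (qN N z) j' j := by
  have hN : N ≠ 0 := NeZero.ne N
  have hM : MT N ^ N = 1 := MT_pow
  have h1 : ∑ j', tw g z j' * Et N (MT N) (qN N z) j' j
      = Matrix.vecMul (Matrix.vecMul (fun j' => cj g j' z) (Et N (MT N) (qN N z)⁻¹))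
          (Et N (MT N) (qN N z)) j := rfl
  rw [h1, Matrix.vecMul_vecMul, Et_mul hN hM, inv_mul_cancel₀ (qN_ne_zero N z), Et_one hN hM,
    Matrix.vecMul_one]

/-- `tw` of a combination `∑ a_i f_i` with level-one coefficients. -/
theorem tw_of_eq_sum {K : ℤ} (κ : Fin (psi N) → ℕ) (f : ∀ i, ModularForm (Gam N) (κ i))
    (a : ∀ i, ModularForm 𝒮ℒ (K - (κ i : ℤ))) (F : ModularForm (Gam N) K)
    (h : ∀ z : ℍ, F z = ∑ i, a i z * f i z) (z : ℍ) (j : Fin (psi N)) :
    tw F z j = ∑ i, a i z * tw (f i) z j := by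
  unfold tw
  simp_rw [cj_of_eq_sum_mul κ f a F h, Finset.sum_mul, Finset.mul_sum]
  rw [Finset.sum_comm]
  refine Finset.sum_congr rfl fun i _ => Finset.sum_congr rfl fun j' _ => ?_
  ring

/-- If the twisted row of `g` tends to `0` at `i∞` then all conjugates of `g` are
`O(e^{-2π Im z})`. -/
theorem cj_exp_decay {k : ℤ} (g : ModularForm (Gam N) k)
    (h0 : ∀ j, Filter.Tendsto (fun z : ℍ => tw g z j) atImInfty (nhds 0)) (j : Fin (psi N)) :
    ∃ C A : ℝ, ∀ z : ℍ, A ≤ z.im → ‖cj g j z‖ ≤ C * Real.exp (-(2 * Real.pi * z.im)) := by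
  obtain ⟨C₀, hC₀, hE⟩ := Et_bound N (MT N)
  have hd : ∀ j' : Fin (psi N), ∃ C A : ℝ, ∀ z : ℍ, A ≤ z.im →
      ‖tw g z j'‖ ≤ C * Real.exp (-(2 * Real.pi * z.im)) := fun j' =>
    exp_decay_of_tendsto_zero (fun z => tw g z j') (tw_mdiff g j') (fun z => tw_T_smul g z j')
      (h0 j')
  choose C A hCA using hd
  refine ⟨(∑ j', |C j'|) * C₀, ∑ j', |A j'|, fun z hz => ?_⟩
  rw [cj_eq_sum_tw g j z]
  calc ‖∑ j', tw g z j' * Et N (MT N) (qN N z) j' j‖
      ≤ ∑ j', ‖tw g z j' * Et N (MT N) (qN N z) j' j‖ := norm_sum_le _ _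
    _ ≤ ∑ j', (|C j'| * Real.exp (-(2 * Real.pi * z.im))) * C₀ := by
      refine Finset.sum_le_sum fun j' _ => ?_
      rw [norm_mul]
      refine mul_le_mul ?_ ((hE _ j' j).1 (norm_qN_le_one z)) (norm_nonneg _)
        (mul_nonneg (abs_nonneg _) (Real.exp_pos _).le)
      refine (hCA j' z (le_trans ?_ hz)).trans ?_
      · calc A j' ≤ |A j'| := le_abs_self _
          _ ≤ ∑ j', |A j'| :=
            Finset.single_le_sum (fun i _ => abs_nonneg (A i)) (Finset.mem_univ j')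
      · exact mul_le_mul_of_nonneg_right (le_abs_self _) (Real.exp_pos _).le
    _ = (∑ j', |C j'|) * C₀ * Real.exp (-(2 * Real.pi * z.im)) := by
      rw [← Finset.sum_mul, ← Finset.sum_mul]
      ring

end Fermat.Agent.S20.CuspAux
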